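import Mathlib.NumberTheory.NumberField.Discriminant.Basic
import Mathlib.MeasureTheory.Integral.Lebesgue.Add

/-!
# Integers of a number field in a box

A box of radius `2 T` at all infinite places contains more than `N` integers as soon as
`N √|d| < T ^ n` (Blichfeldt), and a box of radius `R` at most `(4 R + 2) ^ n`.
-/

set_option autoImplicit false

noncomputable section

namespace FA.SchmidtFieldCount

open NumberField NumberField.InfinitePlace NumberField.mixedEmbedding MeasureTheory Module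
open scoped Pointwise ENNReal NNReal

/-- **Blichfeldt with multiplicity.** -/
theorem exists_finset_of_mul_measure_lt {E L : Type*} [MeasurableSpace E] {μ : Measure E}
    [AddGroup L] [Countable L] [AddAction L E] [MeasurableSpace L] [MeasurableVAdd L E]
    [VAddInvariantMeasure L E μ] {F s : Set E} (fund : IsAddFundamentalDomain L F μ)
    (hs : NullMeasurableSet s μ) (N : ℕ) (h : (N : ℝ≥0∞) * μ F < μ s) :
    ∃ (x : E) (t : Finset L), N < t.card ∧ ∀ g ∈ t, x ∈ g +ᵥ s := by
  classical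
  by_contra hno
  push Not at hno
  refine h.not_ge ?_
  rw [fund.measure_eq_tsum s, ENNReal.tsum_eq_iSup_sum]
  refine iSup_le fun S => ?_
  have hm : ∀ g : L, NullMeasurableSet (g +ᵥ s) (μ.restrict F) := fun g =>
    (hs.vadd g).mono_ac Measure.restrict_le_self.absolutelyContinuous
  calc ∑ g ∈ S, μ ((g +ᵥ s) ∩ F)
      = ∑ g ∈ S, ∫⁻ x in F, (g +ᵥ s).indicator 1 x ∂μ := Finset.sum_congr rfl fun g _ => by
        rw [lintegral_indicator_one₀ (hm g), Measure.restrict_apply₀ (hm g)]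
    _ = ∫⁻ x in F, ∑ g ∈ S, (g +ᵥ s).indicator 1 x ∂μ :=
        (lintegral_finsetSum' _ fun g _ => (aemeasurable_const.indicator₀ (hm g))).symm
    _ ≤ ∫⁻ _ in F, (N : ℝ≥0∞) ∂μ := lintegral_mono fun x => by
        obtain ⟨t, ht⟩ : ∃ t, t = S.filter fun g => x ∈ g +ᵥ s := ⟨_, rfl⟩
        have hcard : t.card ≤ N := by
          by_contra hlt
          push Not at hlt
          obtain ⟨g, hg, hgx⟩ := hno x t hlt
          rw [ht, Finset.mem_filter] at hg
          exact hgx hg.2
        simp only [Set.indicator_apply, Pi.one_apply, ← Finset.sum_filter, ← ht]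
        simpa using (Nat.cast_le (α := ℝ≥0∞)).2 hcard
    _ = (N : ℝ≥0∞) * μ F := setLIntegral_const _ _

variable (K : Type*) [Field K] [NumberField K]

/-- **Many integers in a box.** -/
theorem exists_many_in_box {T : ℝ} (hT : 0 < T) {N : ℕ}
    (h : (N : ℝ) * Real.sqrt |(discr K : ℝ)| < T ^ finrank ℚ K) :
    ∃ s : Finset (𝓞 K), N < s.card ∧ ∀ a ∈ s, ∀ b ∈ s, ∀ w : InfinitePlace K,
      w ((a : K) - b) ≤ 2 * T := by
  classical
  obtain ⟨f, hf⟩ : ∃ f : InfinitePlace K → ℝ≥0, f = fun _ => T.toNNReal := ⟨_, rfl⟩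
  have hfund := ZSpan.isAddFundamentalDomain' (latticeBasis K) volume
  have : Countable (Submodule.span ℤ (Set.range (latticeBasis K))).toAddSubgroup := by
    change Countable (Submodule.span ℤ (Set.range (latticeBasis K)))
    infer_instance
  have hvol : (N : ℝ≥0∞) * volume (ZSpan.fundamentalDomain (latticeBasis K)) <
      volume (convexBodyLT K f) := by
    rw [convexBodyLT_volume, hf, Finset.prod_pow_eq_pow_sum, sum_mult_eq,
      volume_fundamentalDomain_latticeBasis]
    calc (N : ℝ≥0∞) * (2⁻¹ ^ nrComplexPlaces K * (NNReal.sqrt ‖discr K‖₊ : ℝ≥0∞))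
        ≤ (N : ℝ≥0∞) * (1 * (NNReal.sqrt ‖discr K‖₊ : ℝ≥0∞)) := by
          gcongr
          exact pow_le_one₀ (by norm_num) (by norm_num)
      _ < 1 * ((T.toNNReal ^ finrank ℚ K : ℝ≥0) : ℝ≥0∞) := by
          rw [one_mul, one_mul, ← ENNReal.coe_natCast, ← ENNReal.coe_mul, ENNReal.coe_lt_coe,
            ← NNReal.coe_lt_coe]
          push_cast
          rw [Int.norm_eq_abs, Real.coe_toNNReal T hT.le]
          exact h
      _ ≤ _ := by
          gcongr
          exact_mod_cast one_le_convexBodyLTFactor K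
  obtain ⟨x, t, ht, htx⟩ := exists_finset_of_mul_measure_lt hfund
    ((convexBodyLT_convex K f).nullMeasurableSet _) N hvol
  have hmem : ∀ g ∈ t, ∃ a : 𝓞 K, mixedEmbedding K (a : K) = (g : mixedSpace K) := by
    intro g _
    obtain ⟨a, ha⟩ := (mem_span_latticeBasis K).1 g.2
    exact ⟨a, ha⟩
  choose a ha using hmem
  obtain ⟨s, hs⟩ : ∃ s, s = t.attach.image fun g => a g.1 g.2 := ⟨_, rfl⟩
  refine ⟨s, ?_, ?_⟩
  · rwa [hs, Finset.card_image_of_injective, Finset.card_attach]
    intro g g' e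
    refine Subtype.ext (Subtype.ext ?_)
    rw [← ha g.1 g.2, ← ha g'.1 g'.2]
    exact congrArg (fun b : 𝓞 K => mixedEmbedding K (b : K)) e
  intro b hb c hc w
  rw [hs] at hb hc
  obtain ⟨⟨g, hg⟩, -, rfl⟩ := Finset.mem_image.1 hb
  obtain ⟨⟨g', hg'⟩, -, rfl⟩ := Finset.mem_image.1 hc
  obtain ⟨u, hu, hu'⟩ := htx g hg
  obtain ⟨v, hv, hv'⟩ := htx g' hg'
  have hnorm : ∀ y ∈ convexBodyLT K f, normAtPlace w y ≤ T := fun y hy => by
    have hy1 := fun v => mem_ball_zero_iff.1 (hy.1 v (Set.mem_univ v))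
    have hy2 := fun v => mem_ball_zero_iff.1 (hy.2 v (Set.mem_univ v))
    rcases w.isReal_or_isComplex with hw | hw
    · rw [normAtPlace_apply_of_isReal hw]
      exact (hy1 ⟨w, hw⟩).le.trans (by simp [hf, hT.le])
    · rw [normAtPlace_apply_of_isComplex hw]
      exact (hy2 ⟨w, hw⟩).le.trans (by simp [hf, hT.le])
  have key : mixedEmbedding K ((a g hg : K) - a g' hg') = v + -u := by
    rw [map_sub, ha, ha]
    change (g : mixedSpace K) + u = x at hu'
    change (g' : mixedSpace K) + v = x at hv'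
    rw [← hu'] at hv'
    rw [sub_eq_iff_eq_add, eq_comm, ← sub_eq_zero]
    rw [← sub_eq_zero] at hv'
    rw [← hv']
    abel
  rw [← normAtPlace_apply, key, two_mul]
  refine (normAtPlace_add_le w _ _).trans (add_le_add (hnorm v hv) ?_)
  rw [normAtPlace_neg]
  exact hnorm u hu

/-- **Few integers in a box.** -/
theorem exists_finset_box {R : ℝ} (hR : 0 ≤ R) :
    ∃ s : Finset (𝓞 K), (∀ a : 𝓞 K, (∀ φ : K →+* ℂ, ‖φ (a : K)‖ ≤ R) → a ∈ s) ∧
      (s.card : ℝ) ≤ (4 * R + 3) ^ finrank ℚ K := by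
  classical
  obtain ⟨M, hM⟩ : ∃ M : ℕ, M = ⌊2 * R⌋₊ + 1 := ⟨_, rfl⟩
  obtain ⟨J, hJ⟩ : ∃ J : Finset ℤ, J = Finset.Icc (-(M : ℤ)) M := ⟨_, rfl⟩
  have hJcard : J.card = 2 * M + 1 := by rw [hJ, Int.card_Icc]; omega
  obtain ⟨G, hG⟩ : ∃ G : Finset (InfinitePlace K → ℤ × ℤ), G = Fintype.piFinset fun w =>
      J ×ˢ (if w.IsReal then {0} else J) := ⟨_, rfl⟩
  obtain ⟨c, hc⟩ : ∃ c : 𝓞 K → InfinitePlace K → ℤ × ℤ, ∀ a w, c a w =
      (⌊2 * (w.embedding (a : K)).re⌋, ⌊2 * (w.embedding (a : K)).im⌋) := ⟨_, fun _ _ => rfl⟩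
  have hfin : {a : 𝓞 K | ∀ φ : K →+* ℂ, ‖φ (a : K)‖ ≤ R}.Finite := by
    refine ((Embeddings.finite_of_norm_le K ℂ R).preimage
      (RingOfIntegers.coe_injective.injOn)).subset fun a ha => ?_
    exact ⟨a.2, ha⟩
  refine ⟨hfin.toFinset, fun a ha => hfin.mem_toFinset.2 ha, ?_⟩
  have hfloor : ∀ t : ℝ, |t| ≤ R → ⌊2 * t⌋ ∈ J := fun t ht => by
    obtain ⟨h1, h2⟩ := abs_le.1 ht
    have h3 : (2 * R : ℝ) < M := by rw [hM]; push_cast; exact Nat.lt_floor_add_one _
    rw [hJ, Finset.mem_Icc, Int.le_floor, ← Int.lt_add_one_iff, Int.floor_lt]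
    push_cast
    constructor <;> linarith
  have hle : hfin.toFinset.card ≤ G.card := by
    refine Finset.card_le_card_of_injOn c (fun a ha => ?_) fun a _ b _ e => ?_
    · have ha' := hfin.mem_toFinset.1 ha
      rw [Finset.mem_coe, hG, Fintype.mem_piFinset]
      intro w
      rw [hc, Finset.mem_product]
      refine ⟨hfloor _ ((Complex.abs_re_le_norm _).trans (ha' w.embedding)), ?_⟩
      dsimp only
      split_ifs with hw
      · rw [Finset.mem_singleton, ← embedding_of_isReal_apply hw, Complex.ofReal_im, mul_zero,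
          Int.floor_zero]
      · exact hfloor _ ((Complex.abs_im_le_norm _).trans (ha' w.embedding))
    · rw [← sub_eq_zero]
      by_contra hne
      obtain ⟨w⟩ := (inferInstance : Nonempty (InfinitePlace K))
      have hall : ∀ z : InfinitePlace K, z ((a - b : 𝓞 K) : K) < 1 := fun z => by
        have e1 := congrArg Prod.fst (congrFun e z)
        have e2 := congrArg Prod.snd (congrFun e z)
        rw [hc, hc] at e1 e2
        have d1 := Int.abs_sub_lt_one_of_floor_eq_floor e1
        have d2 := Int.abs_sub_lt_one_of_floor_eq_floor e2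
        rw [← norm_embedding_eq, show ((a - b : 𝓞 K) : K) = (a : K) - b from rfl, map_sub]
        refine lt_of_le_of_lt (Complex.norm_le_abs_re_add_abs_im _) ?_
        rw [Complex.sub_re, Complex.sub_im]
        rw [← mul_sub, abs_mul, abs_two] at d1 d2
        linarith
      exact (InfinitePlace.one_le_of_lt_one hne fun z _ => hall z).not_gt (hall w)
  have hM' : ((2 * M + 1 : ℕ) : ℝ) ≤ 4 * R + 3 := by
    rw [hM]; push_cast
    linarith [Nat.floor_le (by linarith : 0 ≤ 2 * R)]
  refine (Nat.cast_le.2 hle).trans ?_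
  rw [hG, Fintype.card_piFinset, ← sum_mult_eq, ← Finset.prod_pow_eq_pow_sum, Nat.cast_prod]
  refine Finset.prod_le_prod (fun _ _ => Nat.cast_nonneg _) fun w _ => ?_
  rw [Finset.card_product, mult, hJcard]
  split_ifs
  · simpa using hM'
  · rw [Nat.cast_mul, hJcard, sq]
    exact mul_le_mul hM' hM' (Nat.cast_nonneg _) (by linarith)

end FA.SchmidtFieldCount

end
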