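import Fermat.Agent.SchmidtFieldCount.Element
import Mathlib.FieldTheory.IsAlgClosed.AlgebraicClosure
import Mathlib.Analysis.SpecialFunctions.Pow.Real

/-!
# Counting fields of given degree by the discriminant

A field of degree `n` with maximal subfield `F` of degree `d`, `n = d m`, is `F (β)` with `β` a
root of one of `O (|D| ^ ((m + 2) / 4))` polynomials over `F`, and `|D_F| ^ m ≤ |D|`.
-/

set_option autoImplicit false
set_option linter.style.haveILetI false

noncomputable section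

namespace FA.SchmidtFieldCount

open NumberField Module
open IntermediateField hiding map
open scoped Classical

local notation "Qb" => AlgebraicClosure ℚ

theorem sum_exponents (m : ℕ) (hm : 1 ≤ m) :
    2 * (∑ i : Fin (m - 1), (m - (i : ℕ))) + 2 = m * (m + 1) := by
  obtain ⟨k, rfl⟩ : ∃ k, m = k + 1 := ⟨m - 1, by omega⟩
  rw [Nat.add_sub_cancel, Fin.sum_univ_eq_sum_range fun i => k + 1 - i]
  clear hm
  induction k with
  | zero => simp
  | succ k ih =>
    rw [Finset.sum_range_succ', Finset.sum_congr rfl fun i _ =>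
      show k + 1 + 1 - (i + 1) = k + 1 - i by omega]
    simp only [Nat.sub_zero]
    linarith

theorem T_condition {n d : ℕ} (hdn : d < n) {X D : ℝ} (hX : 1 ≤ X) (hD : D ≤ X) :
    ∀ T : ℝ, T = ((20 * n : ℝ) ^ d + 1) * X ^ (1 / (2 * ((n : ℝ) - d))) →
      1 ≤ T ∧ (20 * (n : ℝ) * T) ^ d * Real.sqrt D < T ^ n := by
  intro T hT
  obtain ⟨K₀, hK₀⟩ : ∃ K₀, K₀ = (20 * n : ℝ) ^ d + 1 := ⟨_, rfl⟩
  rw [← hK₀] at hT
  have hK1 : 1 ≤ K₀ := by rw [hK₀]; exact le_add_of_nonneg_left (by positivity)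
  have hnd : (0 : ℝ) < (n : ℝ) - d := sub_pos.2 (Nat.cast_lt.2 hdn)
  have hT1 : 1 ≤ T := hT ▸ one_le_mul_of_one_le_of_one_le hK1 (Real.one_le_rpow hX (by positivity))
  refine ⟨hT1, ?_⟩
  have hpow : T ^ (n - d) = K₀ ^ (n - d) * Real.sqrt X := by
    rw [hT, mul_pow, ← Real.rpow_natCast (X ^ _), ← Real.rpow_mul (by linarith),
      Real.sqrt_eq_rpow, Nat.cast_sub hdn.le]
    congr 2
    field_simp
  have hX0 : 0 < Real.sqrt X := Real.sqrt_pos.2 (by linarith)
  have hK : (20 * n : ℝ) ^ d < K₀ ^ (n - d) :=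
    lt_of_lt_of_le (hK₀ ▸ lt_add_one _) (le_self_pow₀ hK1 (by omega))
  calc (20 * (n : ℝ) * T) ^ d * Real.sqrt D ≤ (20 * (n : ℝ) * T) ^ d * Real.sqrt X :=
        mul_le_mul_of_nonneg_left (Real.sqrt_le_sqrt hD) (by positivity)
    _ = T ^ d * ((20 * n : ℝ) ^ d * Real.sqrt X) := by rw [mul_pow]; ring
    _ < T ^ d * (K₀ ^ (n - d) * Real.sqrt X) :=
        mul_lt_mul_of_pos_left (mul_lt_mul_of_pos_right hK hX0) (by positivity)
    _ = T ^ n := by rw [← hpow, ← pow_add, Nat.add_sub_cancel' hdn.le]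

/-- `F` is a maximal proper subfield of `K`. -/
def MaximalIn (F K : IntermediateField ℚ Qb) : Prop :=
  F < K ∧ ∀ G, F ≤ G → G ≤ K → G = F ∨ G = K

theorem exists_maximalIn {K : IntermediateField ℚ Qb} [FiniteDimensional ℚ K]
    (hK : 1 < finrank ℚ K) : ∃ F, MaximalIn F K := by
  obtain ⟨p, hp⟩ : ∃ p : ℕ → Prop, ∀ d, p d ↔ ∃ F : IntermediateField ℚ Qb, F < K ∧
      finrank ℚ F = d := ⟨_, fun _ => Iff.rfl⟩
  have hbot : p 1 := (hp 1).2 ⟨⊥, bot_lt_iff_ne_bot.2 fun e => by
    rw [e, IntermediateField.finrank_bot] at hK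
    omega, IntermediateField.finrank_bot⟩
  obtain ⟨F, hFK, hF⟩ := (hp _).1 (Nat.findGreatest_spec hK.le hbot)
  refine ⟨F, hFK, fun G hFG hGK => or_iff_not_imp_right.2 fun hne => ?_⟩
  haveI : FiniteDimensional ℚ G :=
    FiniteDimensional.of_injective (IntermediateField.inclusion hGK).toLinearMap
      (IntermediateField.inclusion hGK).injective
  have hle : finrank ℚ G ≤ finrank ℚ F := by
    rw [hF]
    exact Nat.le_findGreatest (LinearMap.finrank_le_finrank_of_injective
      (f := (IntermediateField.inclusion hGK).toLinearMap)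
      (IntermediateField.inclusion hGK).injective) ((hp _).2 ⟨G, lt_of_le_of_ne hGK hne, rfl⟩)
  exact (IntermediateField.eq_of_le_of_finrank_le hFG hle).symm

/-- **The fields over a given maximal subfield.** -/
theorem exists_step {n d m : ℕ} (hnm : d * m = n) (hd : 0 < d) (hm : 2 ≤ m) :
    ∃ C : ℝ, 0 ≤ C ∧ ∀ X : ℝ, 1 ≤ X → ∀ F : IntermediateField ℚ Qb, finrank ℚ F = d →
      ∃ s : Finset (IntermediateField ℚ Qb),
        (∀ K : IntermediateField ℚ Qb, finrank ℚ K = n → MaximalIn F K →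
          (∀ [NumberField K], |(discr K : ℝ)| ≤ X) → K ∈ s) ∧
        (s.card : ℝ) ≤ C * X ^ (((m : ℝ) + 2) / 4) := by
  obtain ⟨e, he⟩ : ∃ e, e = ∑ i : Fin (m - 1), (m - (i : ℕ)) := ⟨_, rfl⟩
  obtain ⟨K₀, hK₀⟩ : ∃ K₀, K₀ = (20 * n : ℝ) ^ d + 1 := ⟨_, rfl⟩
  refine ⟨m * ((7 * 2 ^ m) ^ (d * (m - 1)) * (2 * K₀) ^ (d * e)), by rw [hK₀]; positivity,
    fun X hX F hF => ?_⟩
  have hdn : d < n := by rw [← hnm]; exact lt_mul_of_one_lt_right hd (by omega)
  obtain ⟨T, hT⟩ : ∃ T, T = K₀ * X ^ (1 / (2 * ((n : ℝ) - d))) := ⟨_, rfl⟩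
  have hT1 : 1 ≤ T := (T_condition hdn hX le_rfl T (hK₀ ▸ hT)).1
  haveI : FiniteDimensional ℚ F := FiniteDimensional.of_finrank_pos (hF ▸ hd)
  haveI : NumberField F := { }
  have hbox : ∀ i : Fin (m - 1), ∃ b : Finset (𝓞 F),
      (∀ a : 𝓞 F, (∀ φ : F →+* ℂ, ‖φ (a : F)‖ ≤ (2 * T) ^ (m - (i : ℕ)) * 2 ^ m) → a ∈ b) ∧
      (b.card : ℝ) ≤ (7 * 2 ^ m) ^ d * (2 * T) ^ ((m - (i : ℕ)) * d) := by
    intro i
    obtain ⟨b, hb, hb'⟩ := exists_finset_box F
      (R := (2 * T) ^ (m - (i : ℕ)) * 2 ^ m) (by positivity)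
    refine ⟨b, hb, hb'.trans ?_⟩
    rw [show finrank ℚ F = d from hF, pow_mul, ← mul_pow]
    refine pow_le_pow_left₀ (by positivity) ?_ _
    have : 1 ≤ (2 * T) ^ (m - (i : ℕ)) * (2 : ℝ) ^ m :=
      one_le_mul_of_one_le_of_one_le (one_le_pow₀ (by linarith)) (one_le_pow₀ one_le_two)
    linarith
  choose b hb hbcard using hbox
  obtain ⟨poly, hpoly⟩ : ∃ poly : (Fin (m - 1) → 𝓞 F) → Polynomial Qb, ∀ c, poly c =
      Polynomial.X ^ m + ∑ i, Polynomial.C (((c i : 𝓞 F) : F) : Qb) * Polynomial.X ^ (i : ℕ) :=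
    ⟨_, fun _ => rfl⟩
  have hmonic : ∀ c, (poly c).Monic ∧ (poly c).natDegree = m := fun c => by
    have hlt : (∑ i : Fin (m - 1), Polynomial.C (((c i : 𝓞 F) : F) : Qb) *
        Polynomial.X ^ (i : ℕ)).degree < ((m : ℕ) : WithBot ℕ) :=
      lt_of_lt_of_le (Polynomial.degree_sum_fin_lt _) (Nat.cast_le.2 (by omega))
    refine ⟨(hpoly c).symm ▸ Polynomial.monic_X_pow_add hlt,
      Polynomial.natDegree_eq_of_degree_eq_some ?_⟩
    rw [hpoly, Polynomial.degree_add_eq_left_of_degree_lt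
      (by rwa [Polynomial.degree_X_pow]), Polynomial.degree_X_pow]
  refine ⟨(Fintype.piFinset b).biUnion fun c =>
    (poly c).roots.toFinset.image fun z => F ⊔ IntermediateField.adjoin ℚ {z}, ?_, ?_⟩
  · intro K hK hmax hdisc
    haveI : FiniteDimensional ℚ K := FiniteDimensional.of_finrank_pos (hK ▸ (by omega))
    haveI : NumberField K := { }
    letI : Algebra F K := (IntermediateField.inclusion hmax.1.le).toRingHom.toAlgebra
    have hfr : finrank F K = m := by
      have h := finrank_mul_finrank ℚ F K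
      rw [show finrank ℚ F = d from hF, show finrank ℚ K = n from hK, ← hnm] at h
      exact Nat.eq_of_mul_eq_mul_left hd h
    have hTK : 1 ≤ T ∧
        (20 * (finrank ℚ K : ℝ) * T) ^ d * Real.sqrt |(discr K : ℝ)| < T ^ finrank ℚ K := by
      rw [show finrank ℚ K = n from hK]
      exact T_condition hdn hX hdisc T (hK₀ ▸ hT)
    obtain ⟨β, htr, hβF, hβ⟩ := exists_trace_zero F K (d := d) hF hTK.1 hTK.2
    have hsup : F ⊔ IntermediateField.adjoin ℚ {((β : K) : Qb)} = K := by
      refine (hmax.2 _ le_sup_left (sup_le hmax.1.le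
        (IntermediateField.adjoin_simple_le_iff.2 (β : K).2))).resolve_left fun e => hβF ?_
      have hmem : ((β : K) : Qb) ∈ F :=
        e ▸ (le_sup_right : _ ≤ F ⊔ _) (IntermediateField.mem_adjoin_simple_self ℚ _)
      exact ⟨⟨_, hmem⟩, Subtype.ext rfl⟩
    have hgen : IntermediateField.adjoin F {(β : K)} = ⊤ := by
      refine eq_top_iff.2 fun y _ => ?_
      obtain ⟨G, hG⟩ : ∃ G, G = ((IntermediateField.adjoin F {(β : K)}).restrictScalars ℚ).map K.val :=
        ⟨_, rfl⟩
      have hFG : F ≤ G := fun x hx => hG ▸ ⟨algebraMap F K ⟨x, hx⟩,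
        (IntermediateField.adjoin F {(β : K)}).algebraMap_mem _, rfl⟩
      have hGK : G ≤ K := by
        rintro x hx
        rw [hG] at hx
        obtain ⟨z, -, rfl⟩ := hx
        exact z.2
      have hβG : ((β : K) : Qb) ∈ G :=
        hG ▸ ⟨(β : K), IntermediateField.mem_adjoin_simple_self F _, rfl⟩
      have hle : K ≤ G := le_trans hsup.ge (sup_le hFG (IntermediateField.adjoin_simple_le_iff.2 hβG))
      have hy := hle y.2
      rw [hG] at hy
      obtain ⟨z, hz, hzy⟩ := hy
      rwa [← Subtype.ext (show (z : Qb) = y from hzy)]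
    obtain ⟨c, hc, hcb⟩ := exists_small_equation F K hfr
      (RingOfIntegers.isIntegral_coe β) hgen htr hβ
    rw [Finset.mem_biUnion]
    refine ⟨c, Fintype.mem_piFinset.2 fun i => hb i (c i) (hcb i), Finset.mem_image.2
      ⟨((β : K) : Qb), ?_, hsup⟩⟩
    rw [Multiset.mem_toFinset, Polynomial.mem_roots (hmonic c).1.ne_zero, Polynomial.IsRoot, hpoly,
      Polynomial.eval_add, Polynomial.eval_pow, Polynomial.eval_X, Polynomial.eval_finsetSum]
    simp only [Polynomial.eval_mul, Polynomial.eval_C, Polynomial.eval_pow, Polynomial.eval_X]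
    have h := congrArg K.val hc
    rw [map_add, map_pow, map_sum, map_zero] at h
    simp only [map_mul, map_pow] at h
    exact h
  · refine (Nat.cast_le.2 (Finset.card_biUnion_le_card_mul _ _ m fun c _ =>
      Finset.card_image_le.trans ((Multiset.toFinset_card_le _).trans
        ((Polynomial.card_roots' _).trans (hmonic c).2.le)))).trans ?_
    rw [Nat.cast_mul, Fintype.card_piFinset, Nat.cast_prod]
    refine (mul_le_mul_of_nonneg_right (Finset.prod_le_prod (fun _ _ => Nat.cast_nonneg _)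
      fun i _ => hbcard i) (Nat.cast_nonneg m)).trans (le_of_eq ?_)
    rw [Finset.prod_mul_distrib, Finset.prod_const, Finset.card_univ, Fintype.card_fin,
      Finset.prod_pow_eq_pow_sum, ← Finset.sum_mul, ← he, ← pow_mul, hT, ← mul_assoc (2 : ℝ) K₀, mul_pow (2 * K₀),
      ← Real.rpow_natCast (X ^ _), ← Real.rpow_mul (by linarith), mul_comm e d]
    have hexp : 1 / (2 * ((n : ℝ) - d)) * ((d * e : ℕ) : ℝ) = ((m : ℝ) + 2) / 4 := by
      have h := sum_exponents m (by omega)
      rw [← he] at h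
      have h' : 2 * (e : ℝ) + 2 = m * (m + 1) := by exact_mod_cast h
      have hd' : (0 : ℝ) < d := Nat.cast_pos.2 hd
      have hm' : (2 : ℝ) ≤ m := by exact_mod_cast hm
      rw [← hnm, Nat.cast_mul, Nat.cast_mul, show (d : ℝ) * m - d = d * (m - 1) by ring]
      have : (d : ℝ) * (m - 1) ≠ 0 := (mul_pos hd' (by linarith)).ne'
      rw [one_div_mul_eq_div, div_eq_div_iff (mul_ne_zero two_ne_zero this) (by norm_num)]
      linear_combination (2 * (d : ℝ)) * h'
    rw [hexp]
    ring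

/-- The exponent for subfields of degree `d`. -/
def subExp (d : ℕ) : ℝ :=
  if d = 1 then 0 else ((d : ℝ) + 2) / 4

theorem exponent_le {d m : ℕ} (hd : 1 ≤ d) (hm : 2 ≤ m) :
    ((m : ℝ) + 2) / 4 + subExp d / m ≤ (((d * m : ℕ) : ℝ) + 2) / 4 := by
  have hm' : (2 : ℝ) ≤ m := by exact_mod_cast hm
  rw [subExp]
  split_ifs with h
  · subst h; simp
  · have hd' : (2 : ℝ) ≤ d := by exact_mod_cast (by omega : 2 ≤ d)
    have hm0 : (0 : ℝ) < m := by linarith
    rw [div_div, div_add_div _ _ (by norm_num) (by positivity), div_le_div_iff₀ (by positivity)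
      (by norm_num)]
    push_cast
    nlinarith [mul_le_mul_of_nonneg_left hd' (by nlinarith : (0 : ℝ) ≤ (m : ℝ) ^ 2 - 1),
      mul_le_mul hm' hm' (by norm_num) hm0.le]

/-- **Schmidt's theorem.** -/
theorem exists_count (n : ℕ) (hn : 1 ≤ n) :
    ∃ C : ℝ, 0 ≤ C ∧ ∀ X : ℝ, 1 ≤ X → ∃ s : Finset (IntermediateField ℚ Qb),
      (∀ K : IntermediateField ℚ Qb, finrank ℚ K = n →
        (∀ [NumberField K], |(discr K : ℝ)| ≤ X) → K ∈ s) ∧
      (s.card : ℝ) ≤ C * X ^ subExp n := by
  induction n using Nat.strong_induction_on with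
  | _ n ih =>
    rcases (show n = 1 ∨ 1 < n by omega) with rfl | h1
    · refine ⟨1, zero_le_one, fun X hX => ⟨{⊥}, fun K hK _ => ?_, by simp [subExp]⟩⟩
      rw [Finset.mem_singleton]
      exact IntermediateField.finrank_eq_one_iff.1 hK
    obtain ⟨D, hD⟩ : ∃ D : Finset ℕ, D = n.properDivisors := ⟨_, rfl⟩
    have hdata : ∀ d ∈ D, 0 < d ∧ d * (n / d) = n ∧ 2 ≤ n / d ∧ d < n := fun d hd => by
      rw [hD, Nat.mem_properDivisors] at hd
      have hd0 : 0 < d := Nat.pos_of_dvd_of_pos hd.1 (by omega)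
      have he := Nat.mul_div_cancel' hd.1
      refine ⟨hd0, he, ?_, hd.2⟩
      by_contra hlt
      have : d * (n / d) ≤ d * 1 := Nat.mul_le_mul_left d (by omega)
      omega
    have hsub : ∀ d ∈ D, ∃ C : ℝ, 0 ≤ C ∧ ∀ X : ℝ, 1 ≤ X →
        ∃ s : Finset (IntermediateField ℚ Qb), (∀ K F : IntermediateField ℚ Qb,
          finrank ℚ K = n → finrank ℚ F = d → MaximalIn F K →
            (∀ [NumberField K], |(discr K : ℝ)| ≤ X) → K ∈ s) ∧
          (s.card : ℝ) ≤ C * X ^ subExp n := by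
      intro d hd
      obtain ⟨hd0, hnm, hm2, hdn⟩ := hdata d hd
      obtain ⟨m, hm⟩ : ∃ m, m = n / d := ⟨_, rfl⟩
      rw [← hm] at hnm hm2
      obtain ⟨A, hA0, hA⟩ := ih d hdn hd0
      obtain ⟨B, hB0, hB⟩ := exists_step hnm hd0 hm2
      refine ⟨A * B, mul_nonneg hA0 hB0, fun X hX => ?_⟩
      have hm0 : (0 : ℝ) < m := Nat.cast_pos.2 (by omega)
      have hY : 1 ≤ X ^ (1 / (m : ℝ)) := Real.one_le_rpow hX (by positivity)
      obtain ⟨sF, hsF, hsFcard⟩ := hA _ hY
      choose sK hsK hsKcard using fun F : {F : IntermediateField ℚ Qb // finrank ℚ F = d} =>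
        hB X hX F.1 F.2
      refine ⟨((sF.subtype fun F : IntermediateField ℚ Qb => finrank ℚ F = d)).biUnion sK, ?_, ?_⟩
      · intro K F hK hF hmax hdisc
        refine Finset.mem_biUnion.2 ⟨⟨F, hF⟩, Finset.mem_subtype.2 ?_, hsK _ K hK hmax hdisc⟩
        refine hsF F hF ?_
        intro _
        haveI : FiniteDimensional ℚ K := FiniteDimensional.of_finrank_pos (hK ▸ (by omega))
        haveI : NumberField K := { }
        letI : Algebra F K := (IntermediateField.inclusion hmax.1.le).toRingHom.toAlgebra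
        have hfr : finrank F K = m := by
          have h := finrank_mul_finrank ℚ F K
          rw [show finrank ℚ F = d from hF, show finrank ℚ K = n from hK, ← hnm] at h
          exact Nat.eq_of_mul_eq_mul_left hd0 h
        have h := natAbs_discr_pow_le F K
        rw [hfr] at h
        have h' : |(discr F : ℝ)| ^ m ≤ X := by
          refine le_trans ?_ hdisc
          rw [← Int.cast_abs, ← Int.cast_abs, Int.abs_eq_natAbs, Int.abs_eq_natAbs]
          exact_mod_cast h
        rw [one_div, Real.le_rpow_inv_iff_of_pos (abs_nonneg _) (by linarith) hm0,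
          Real.rpow_natCast]
        exact h'
      · refine (Nat.cast_le.2 Finset.card_biUnion_le).trans ?_
        rw [Nat.cast_sum]
        refine (Finset.sum_le_card_nsmul _ _ (B * X ^ (((m : ℝ) + 2) / 4))
          fun F _ => hsKcard F).trans ?_
        rw [nsmul_eq_mul]
        have hc : ((sF.subtype fun F : IntermediateField ℚ Qb => finrank ℚ F = d).card : ℝ) ≤
            A * (X ^ (1 / (m : ℝ))) ^ subExp d := by
          refine le_trans (Nat.cast_le.2 ?_) hsFcard
          rw [Finset.card_subtype]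
          exact Finset.card_filter_le _ _
        refine (mul_le_mul_of_nonneg_right hc (by positivity)).trans ?_
        rw [← Real.rpow_mul (by linarith), mul_mul_mul_comm, ← Real.rpow_add (by linarith)]
        refine mul_le_mul_of_nonneg_left (Real.rpow_le_rpow_of_exponent_le hX ?_)
          (mul_nonneg hA0 hB0)
        rw [one_div_mul_eq_div, add_comm]
        refine (exponent_le hd0 hm2).trans (le_of_eq ?_)
        rw [hnm, subExp, if_neg (by omega)]
    choose! C hC0 hC using hsub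
    refine ⟨∑ d ∈ D, C d, Finset.sum_nonneg fun d hd => hC0 d hd, fun X hX => ?_⟩
    choose! s hs hscard using fun d hd => hC d hd X hX
    refine ⟨D.biUnion s, fun K hK hdisc => ?_, ?_⟩
    · haveI : FiniteDimensional ℚ K := FiniteDimensional.of_finrank_pos (hK ▸ (by omega))
      obtain ⟨F, hmax⟩ := exists_maximalIn (K := K) (hK ▸ h1)
      letI : Algebra F K := (IntermediateField.inclusion hmax.1.le).toRingHom.toAlgebra
      have hlt : finrank ℚ F < n := by
        refine lt_of_le_of_ne (hK ▸ LinearMap.finrank_le_finrank_of_injective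
          (f := (IntermediateField.inclusion hmax.1.le).toLinearMap)
          (IntermediateField.inclusion hmax.1.le).injective) fun e => hmax.1.ne ?_
        exact IntermediateField.eq_of_le_of_finrank_le hmax.1.le (by omega)
      have hmem : finrank ℚ F ∈ D := by
        rw [hD, Nat.mem_properDivisors]
        refine ⟨⟨finrank F K, ?_⟩, hlt⟩
        rw [← hK]
        exact (finrank_mul_finrank ℚ F K).symm
      exact Finset.mem_biUnion.2 ⟨_, hmem, hs _ hmem K F hK rfl hmax hdisc⟩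
    · refine (Nat.cast_le.2 Finset.card_biUnion_le).trans ?_
      rw [Nat.cast_sum, Finset.sum_mul]
      exact Finset.sum_le_sum fun d hd => hscard d hd

end FA.SchmidtFieldCount

end
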