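import Fermat.Agent.SchmidtFieldCount.Box
import Mathlib.RingTheory.Trace.Basic
import Mathlib.NumberTheory.NumberField.Discriminant.Different
import Mathlib.Topology.Algebra.Polynomial

/-!
# A small integer of relative trace zero

Among many integers of `K` in a box two have the same trace to `F`; their difference has trace
zero and lies outside `F`. The equation over `F` of such an element has small coefficients.
-/

set_option autoImplicit false
set_option linter.style.haveILetI false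

noncomputable section

namespace FA.SchmidtFieldCount

open NumberField Module

variable (F K : Type*) [Field F] [NumberField F] [Field K] [NumberField K] [Algebra F K]

theorem norm_trace_le {x : K} {B : ℝ} (hx : ∀ φ : K →+* ℂ, ‖φ x‖ ≤ B) (φ : F →+* ℂ) :
    ‖φ (Algebra.trace F K x)‖ ≤ (finrank F K : ℝ) * B := by
  classical
  letI := φ.toAlgebra
  haveI : FiniteDimensional F K := FiniteDimensional.right ℚ F K
  have h := trace_eq_sum_embeddings (K := F) (L := K) ℂ (x := x)
  rw [show φ (Algebra.trace F K x) = algebraMap F ℂ (Algebra.trace F K x) from rfl, h]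
  refine (norm_sum_le _ _).trans ((Finset.sum_le_card_nsmul _ _ B fun σ _ => ?_).trans_eq ?_)
  · exact hx σ.toRingHom
  · rw [Finset.card_univ, AlgHom.card F K ℂ, nsmul_eq_mul]

theorem exists_trace_int (a : 𝓞 K) : ∃ t : 𝓞 F, (t : F) = Algebra.trace F K (a : K) :=
  haveI : FiniteDimensional F K := FiniteDimensional.right ℚ F K
  ⟨⟨_, Algebra.isIntegral_trace a.2⟩, rfl⟩

/-- **A small integer of relative trace zero outside `F`.** -/
theorem exists_trace_zero {d : ℕ} (hd : finrank ℚ F = d) {T : ℝ}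
    (hT : 1 ≤ T)
    (h : (20 * (finrank ℚ K : ℝ) * T) ^ d * Real.sqrt |(discr K : ℝ)| < T ^ finrank ℚ K) :
    ∃ β : 𝓞 K, Algebra.trace F K (β : K) = 0 ∧
      (β : K) ∉ Set.range (algebraMap F K) ∧ ∀ φ : K →+* ℂ, ‖φ (β : K)‖ ≤ 2 * T := by
  classical
  haveI : FiniteDimensional F K := FiniteDimensional.right ℚ F K
  obtain ⟨n, hn⟩ : ∃ n, n = finrank ℚ K := ⟨_, rfl⟩
  rw [← hn] at h
  obtain ⟨m, hm⟩ : ∃ m, m = finrank F K := ⟨_, rfl⟩
  have hmn : m ≤ n := by
    rw [hm, hn, ← finrank_mul_finrank ℚ F K]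
    exact Nat.le_mul_of_pos_left _ finrank_pos
  have hn1 : (1 : ℝ) ≤ n := by rw [hn]; exact_mod_cast finrank_pos
  have hT0 : 0 < T := by linarith
  obtain ⟨box, hbox, hcard⟩ := exists_finset_box F (R := (m : ℝ) * (2 * T)) (by positivity)
  have hcard' : (box.card : ℝ) ≤ (20 * n * T) ^ d := by
    rw [← hd]
    refine hcard.trans (pow_le_pow_left₀ (by positivity) ?_ _)
    have : (m : ℝ) * T ≤ n * T :=
      mul_le_mul_of_nonneg_right (Nat.cast_le.2 hmn) hT0.le
    have : 1 ≤ (n : ℝ) * T := one_le_mul_of_one_le_of_one_le hn1 hT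
    linarith
  obtain ⟨s, hs, hsdiff⟩ := exists_many_in_box K hT0 (N := box.card) (by
    rw [← hn]
    exact lt_of_le_of_lt (mul_le_mul_of_nonneg_right hcard' (Real.sqrt_nonneg _)) h)
  obtain ⟨a₀, ha₀⟩ := Finset.card_pos.1 (lt_of_le_of_lt (Nat.zero_le _) hs)
  have hφ : ∀ a ∈ s, ∀ b ∈ s, ∀ φ : K →+* ℂ, ‖φ ((a - b : 𝓞 K) : K)‖ ≤ 2 * T :=
    fun a ha b hb φ => hsdiff a ha b hb (InfinitePlace.mk φ)
  choose t ht using fun a : 𝓞 K => exists_trace_int F K (a - a₀)
  have hmaps : Set.MapsTo t s box := fun a ha => hbox _ fun φ => by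
    rw [ht, hm]
    exact norm_trace_le F K (hφ a ha a₀ ha₀) φ
  obtain ⟨a, ha, b, hb, hab, hte⟩ := Finset.exists_ne_map_eq_of_card_lt_of_maps_to hs hmaps
  have htr : Algebra.trace F K ((a - b : 𝓞 K) : K) = 0 := by
    have e := congrArg (fun u : 𝓞 F => (u : F)) hte
    simp only [ht] at e
    rw [show ((a - b : 𝓞 K) : K) = ((a - a₀ : 𝓞 K) : K) - ((b - a₀ : 𝓞 K) : K) by
      rw [← map_sub]; congr 1; ring, map_sub, e, sub_self]
  refine ⟨a - b, htr, ?_, hφ a ha b hb⟩
  rintro ⟨c, hc⟩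
  rw [← hc, Algebra.trace_algebraMap] at htr
  have hc0 : c = 0 := (smul_eq_zero.1 htr).resolve_left finrank_pos.ne'
  rw [hc0, map_zero] at hc
  exact hab (sub_eq_zero.1 (RingOfIntegers.coe_injective (hc.symm.trans (map_zero _).symm)))

/-- **The equation of such an element.** -/
theorem exists_small_equation {m : ℕ} (hm : finrank F K = m) {β : K} (hint : IsIntegral ℤ β)
    (hgen : IntermediateField.adjoin F {β} = ⊤) (htr : Algebra.trace F K β = 0) {B : ℝ}
    (hB : ∀ φ : K →+* ℂ, ‖φ β‖ ≤ B) :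
    ∃ c : Fin (m - 1) → 𝓞 F,
      (β ^ m + ∑ i, algebraMap F K (c i) * β ^ (i : ℕ) = 0) ∧
      ∀ i : Fin (m - 1), ∀ φ : F →+* ℂ, ‖φ (c i : F)‖ ≤ B ^ (m - i) * 2 ^ m := by
  classical
  haveI : FiniteDimensional F K := FiniteDimensional.right ℚ F K
  obtain ⟨P, hP⟩ : ∃ P, P = minpoly F β := ⟨_, rfl⟩
  have hβ : IsIntegral F β := IsIntegral.of_finite F β
  have hPm : P.Monic := hP ▸ minpoly.monic hβ
  have hPd : P.natDegree = m := by
    rw [hP, ← IntermediateField.adjoin.finrank hβ, hgen, IntermediateField.finrank_top', hm]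
  have hm0 : 0 < m := hm ▸ finrank_pos
  have hcoeff : ∀ i, IsIntegral ℤ (P.coeff i) := fun i => by
    rw [hP, minpoly.isIntegrallyClosed_eq_field_fractions' F
      (hint.tower_top (A := 𝓞 F)), Polynomial.coeff_map]
    exact RingOfIntegers.isIntegral_coe _
  have htop : P.coeff (m - 1) = 0 := by
    have h := trace_eq_finrank_mul_minpoly_nextCoeff F β
    rw [htr, ← hP, hgen, IntermediateField.finrank_top, Nat.cast_one, one_mul, eq_comm,
      neg_eq_zero, Polynomial.nextCoeff_of_natDegree_pos (hPd ▸ hm0), hPd] at h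
    exact h
  refine ⟨fun i => ⟨P.coeff i, hcoeff i⟩, ?_, fun i φ => ?_⟩
  · have h := minpoly.aeval F β
    rw [← hP, Polynomial.aeval_eq_sum_range, hPd] at h
    obtain ⟨m', rfl⟩ : ∃ m', m = m' + 1 := ⟨m - 1, by omega⟩
    rw [Finset.sum_range_succ, Finset.sum_range_succ] at h
    rw [Nat.add_sub_cancel] at htop
    rw [htop, zero_smul, add_zero, show P.coeff (m' + 1) = 1 by rw [← hPd]; exact hPm, one_smul,
      Finset.sum_range fun i => P.coeff i • β ^ i] at h
    rw [add_comm]
    simp only [← Algebra.smul_def]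
    exact h
  · show ‖φ (P.coeff i)‖ ≤ _
    rw [← Polynomial.coeff_map]
    refine (Polynomial.coeff_le_of_roots_le (B := B) i hPm (IsAlgClosed.splits _) fun z hz => ?_).trans ?_
    · obtain ⟨hne, hz⟩ := Polynomial.mem_roots'.1 hz
      have hQ : z ∈ (minpoly ℚ β).rootSet ℂ := by
        rw [Polynomial.mem_rootSet]
        refine ⟨minpoly.ne_zero (IsIntegral.of_finite ℚ β), ?_⟩
        obtain ⟨Q, hQ⟩ := minpoly.dvd_map_of_isScalarTower ℚ F β
        rw [← hP] at hQ
        have e : (minpoly ℚ β).map (algebraMap ℚ ℂ) =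
            ((minpoly ℚ β).map (algebraMap ℚ F)).map φ := by
          rw [Polynomial.map_map]
          exact congrArg (Polynomial.map · _) (Subsingleton.elim _ _)
        rw [Polynomial.aeval_def, ← Polynomial.eval_map, e, hQ, Polynomial.map_mul,
          Polynomial.eval_mul, Polynomial.IsRoot.def.1 hz, zero_mul]
      rw [← Embeddings.range_eval_eq_rootSet_minpoly K ℂ β] at hQ
      obtain ⟨σ, rfl⟩ := hQ
      exact hB σ
    · rw [hPd]
      obtain ⟨σ⟩ := (inferInstance : Nonempty (K →+* ℂ))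
      refine mul_le_mul_of_nonneg_left ?_ (pow_nonneg ((norm_nonneg _).trans (hB σ)) _)
      exact_mod_cast Nat.choose_le_two_pow m i

theorem natAbs_discr_pow_le :
    (discr F).natAbs ^ finrank F K ≤ (discr K).natAbs := by
  haveI : FiniteDimensional F K := FiniteDimensional.right ℚ F K
  rw [natAbs_discr_eq_absNorm_differentIdeal_mul_natAbs_discr_pow F (𝓞 F) K (𝓞 K)]
  refine Nat.le_mul_of_pos_left _ (Nat.pos_of_ne_zero ?_)
  rw [Ne, Ideal.absNorm_eq_zero_iff]
  exact differentIdeal_ne_bot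

end FA.SchmidtFieldCount

end
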