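import Fermat.Agent.SchmidtFieldCount.Count

/-!
# A small generator of a primitive field
-/

set_option autoImplicit false
set_option linter.style.haveILetI false

noncomputable section

namespace FA.SchmidtFieldCount

open NumberField Module

/-- **A primitive field has a small generator of trace zero.** -/
theorem exists_small_generator {n : ℕ} (hn : 2 ≤ n) :
    ∃ C : ℝ, ∀ (K : Type) [Field K] [NumberField K], finrank ℚ K = n →
      (∀ F : IntermediateField ℚ K, F = ⊥ ∨ F = ⊤) →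
      ∃ β : 𝓞 K, IntermediateField.adjoin ℚ {(β : K)} = ⊤ ∧ Algebra.trace ℚ K (β : K) = 0 ∧
        (∀ φ : K →+* ℂ, ‖φ (β : K)‖ ≤
          C * |(discr K : ℝ)| ^ (1 / (2 * ((n : ℝ) - 1)))) ∧
        ∃ a : Fin (n - 1) → ℤ,
          ((β : K) ^ n + ∑ i, (a i : K) * (β : K) ^ (i : ℕ) = 0) ∧
          ∀ i : Fin (n - 1), |(a i : ℝ)| ≤
            (C * |(discr K : ℝ)| ^ (1 / (2 * ((n : ℝ) - 1)))) ^ (n - (i : ℕ)) * 2 ^ n := by
  refine ⟨2 * ((20 * n : ℝ) ^ 1 + 1), fun K _ _ hK hprim => ?_⟩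
  obtain ⟨T, hT⟩ : ∃ T, T =
      ((20 * n : ℝ) ^ 1 + 1) * |(discr K : ℝ)| ^ (1 / (2 * ((n : ℝ) - ((1 : ℕ) : ℝ)))) := ⟨_, rfl⟩
  have hD : 1 ≤ |(discr K : ℝ)| := by
    rw [← Int.cast_abs]
    exact_mod_cast Int.one_le_abs (discr_ne_zero K)
  obtain ⟨hT1, hcond⟩ := T_condition (n := n) (d := 1) (by omega) hD le_rfl T hT
  obtain ⟨β, htr, hout, hβ⟩ := exists_trace_zero ℚ K (d := 1) (finrank_self ℚ) hT1 (by rwa [hK])
  have hgen : IntermediateField.adjoin ℚ {(β : K)} = ⊤ := by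
    refine (hprim _).resolve_left fun e => hout ?_
    have h := IntermediateField.mem_adjoin_simple_self ℚ (β : K)
    rw [e] at h
    exact IntermediateField.mem_bot.1 h
  rw [Nat.cast_one] at hT
  rw [mul_assoc, ← hT]
  obtain ⟨c, hc, hcb⟩ := exists_small_equation ℚ K hK (RingOfIntegers.isIntegral_coe β) hgen htr hβ
  have hint : ∀ i, ∃ a : ℤ, (a : ℚ) = (c i : ℚ) := fun i =>
    IsIntegrallyClosed.isIntegral_iff.1 (c i).2
  choose a ha using hint
  refine ⟨β, hgen, htr, hβ, a, ?_, fun i => ?_⟩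
  · simpa only [← ha, map_intCast] using hc
  · have h := hcb i (Rat.castHom ℂ)
    rw [← ha] at h
    simpa using h

end FA.SchmidtFieldCount

end
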